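import Mathlib

set_option autoImplicit false

namespace Fermat.Agent.S57

open CategoryTheory Abelian IsLocalRing Module RingTheory.Sequence

/-- devissage: over a local ring, a module of finite length has projective dimension at most
that of the residue field. -/
theorem hasProjectiveDimensionLE_of_isFiniteLength {R : Type} [CommRing R] [IsLocalRing R] (n : ℕ)
    (hk : HasProjectiveDimensionLE (ModuleCat.of R (R ⧸ maximalIdeal R)) n)
    (V : Type) [AddCommGroup V] [Module R V] (hV : IsFiniteLength R V) :
    HasProjectiveDimensionLE (ModuleCat.of R V) n := by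
  induction hV with
  | @of_subsingleton V _ _ _ =>
    have hz : Limits.IsZero (ModuleCat.of R V) := ModuleCat.isZero_of_subsingleton _
    have := hz.hasProjectiveDimensionLT_zero
    exact hasProjectiveDimensionLT_of_ge (ModuleCat.of R V) 0 (n + 1) (Nat.zero_le _)
  | @of_simple_quotient V _ _ W hs _ ih =>
    obtain ⟨I, hI, ⟨e⟩⟩ := isSimpleModule_iff_quot_maximal.mp hs
    have hIm : I = maximalIdeal R := IsLocalRing.eq_maximalIdeal hI
    subst hIm
    have h3 : HasProjectiveDimensionLE (ModuleCat.of R (V ⧸ W)) n :=
      hasProjectiveDimensionLT_of_iso (e.symm.toModuleIso) (n + 1)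
    have hS : (ShortComplex.mk (ModuleCat.ofHom W.subtype) (ModuleCat.ofHom W.mkQ)
        (by ext x; simp)).ShortExact := by
      apply ModuleCat.shortComplex_shortExact
      · intro x
        simp
      · exact W.injective_subtype
      · exact W.mkQ_surjective
    exact hS.hasProjectiveDimensionLT_X₂ (n + 1) ih h3

theorem free_of_regular {R : Type} [CommRing R] [IsLocalRing R] [IsNoetherianRing R]
    (xs : List R) (hxs : IsRegular R xs) (hxm : Ideal.ofList xs = maximalIdeal R)
    (N : Type) [AddCommGroup N] [Module R N] [Module.Finite R N]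
    (ys : List R) (hlen : ys.length = xs.length) (hys : IsWeaklyRegular N ys)
    (hym : ∀ y ∈ ys, y ∈ maximalIdeal R)
    (hfl : IsFiniteLength R (N ⧸ Ideal.ofList ys • (⊤ : Submodule R N))) :
    Module.Free R N := by
  rcases subsingleton_or_nontrivial N with hN | hN
  · infer_instance
  -- projective dimension of the residue field
  have h1 : projectiveDimension (ModuleCat.of R (Shrink.{0} (R ⧸ Ideal.ofList xs))) = xs.length :=
    ModuleCat.projectiveDimension_quotient_eq_length xs hxs
  have hk : HasProjectiveDimensionLE (ModuleCat.of R (R ⧸ maximalIdeal R)) xs.length := by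
    rw [← projectiveDimension_le_iff, ← hxm,
      ← projectiveDimension_eq_of_iso (Shrink.linearEquiv R (R ⧸ Ideal.ofList xs)).toModuleIso, h1]
  have h2 := hasProjectiveDimensionLE_of_isFiniteLength xs.length hk _ hfl
  rw [← projectiveDimension_le_iff] at h2
  have h3 := ModuleCat.projectiveDimension_quotient_eq_add_length_of_isWeaklyRegular
    (ModuleCat.of R N) ys hys hym
  rw [h3, hlen] at h2
  have h4 : projectiveDimension (ModuleCat.of R N) ≤ (0 : ℕ) := by
    have h2' : projectiveDimension (ModuleCat.of R N) + (xs.length : ℕ) ≤
        ((0 : ℕ) : WithBot ℕ∞) + (xs.length : ℕ) := by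
      simpa using h2
    exact ENat.WithBot.add_le_add_natCast_right_iff.mp h2'
  have h5 : HasProjectiveDimensionLE (ModuleCat.of R N) 0 := by
    rw [← projectiveDimension_le_iff]
    exact h4
  have h6 : Projective (ModuleCat.of R N) :=
    (projective_iff_hasProjectiveDimensionLE_zero _).mpr h5
  have h7 : Module.Projective R N := (IsProjective.iff_projective N).mpr h6
  exact Module.free_of_flat_of_isLocalRing

end Fermat.Agent.S57
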