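import Mathlib.RingTheory.MvPowerSeries.Basic

set_option autoImplicit false

namespace Fermat.Agent.S57

/-- the list `X_0, ..., X_{r-1}, C ϖ` of elements of the power series ring -/
noncomputable def xs (𝒪 : Type) [CommRing 𝒪] (r : ℕ) (ϖ : 𝒪) : List (MvPowerSeries (Fin r) 𝒪) :=
  (List.ofFn fun i : Fin r => (MvPowerSeries.X i : MvPowerSeries (Fin r) 𝒪)) ++ [MvPowerSeries.C ϖ]

end Fermat.Agent.S57
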