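import Mathlib
import Fermat.Prelude.Def_Algebra_PatchingDatum

set_option autoImplicit false

namespace Fermat.Agent.S57

/-- coordinates of elements of `I • ⊤` w.r.t. a basis lie in `I` -/
theorem repr_mem_of_mem_smul_top {A : Type*} [CommRing A] {N : Type*} [AddCommGroup N] [Module A N]
    {ι : Type*} (e : Module.Basis ι A N) (I : Ideal A) {x : N}
    (hx : x ∈ I • (⊤ : Submodule A N)) (j : ι) : e.repr x j ∈ I := by
  refine Submodule.smul_induction_on (p := fun x => e.repr x j ∈ I) hx ?_ ?_
  · intro a ha n _
    simp only [map_smul, Finsupp.smul_apply, smul_eq_mul]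
    exact I.mul_mem_right _ ha
  · intro x y hx hy
    simp only [map_add, Finsupp.add_apply]
    exact I.add_mem hx hy

variable {𝒪 : Type} [CommRing 𝒪] {r : ℕ} {R : Type} [CommRing R] [Algebra 𝒪 R]
    {M : Type} [AddCommGroup M] [Module R M] (L : Algebra.PatchingLevel 𝒪 r R M ⊥)

theorem final [Nontrivial M] (hfree : Module.Free (MvPowerSeries (Fin r) 𝒪) L.N) :
    Module.Free R M ∧ Module.annihilator R M = ⊥ ∧
      RingHom.ker L.ψ = Ideal.span (Set.range fun i : Fin r => L.φ (MvPowerSeries.X i)) := by
  classical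
  set I : Ideal (MvPowerSeries (Fin r) 𝒪) :=
    Ideal.span (Set.range fun i : Fin r => L.φ (MvPowerSeries.X i)) with hI
  let e := Module.Free.chooseBasis (MvPowerSeries (Fin r) 𝒪) L.N
  have hIker : ∀ f ∈ I, L.ψ f = 0 := by
    intro f hf
    have : I ≤ RingHom.ker L.ψ := by
      rw [hI, Ideal.span_le]
      rintro _ ⟨i, rfl⟩
      exact L.ψ_φ_X i
    exact this hf
  have hπsum : ∀ (s : Finset _) (f : _ → MvPowerSeries (Fin r) 𝒪),
      L.π (∑ i ∈ s, f i • e i) = ∑ i ∈ s, L.ψ (f i) • L.π (e i) := by
    intro s f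
    rw [map_sum]
    exact Finset.sum_congr rfl fun i _ => L.π_smul _ _
  -- the index type is nonempty
  have hne : Nonempty (Module.Free.ChooseBasisIndex (MvPowerSeries (Fin r) 𝒪) L.N) := by
    by_contra hemp
    rw [not_nonempty_iff] at hemp
    obtain ⟨m, hm⟩ := exists_ne (0 : M)
    obtain ⟨x, rfl⟩ := L.π_surjective m
    apply hm
    have : x = 0 := by
      apply e.repr.injective
      ext j
      exact (hemp.false j).elim
    rw [this, map_zero]
  obtain ⟨j0⟩ := hne
  have hli : LinearIndependent R (fun j => L.π (e j)) := by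
    rw [linearIndependent_iff']
    intro s g hg i hi
    choose f hf using fun j => L.ψ_surjective (g j)
    have h0 : L.π (∑ j ∈ s, f j • e j) = 0 := by
      rw [hπsum, ← hg]
      exact Finset.sum_congr rfl fun j _ => by rw [hf]
    have hmem := (L.ker_π _).1 h0
    have hc := repr_mem_of_mem_smul_top e I hmem i
    have hrepr : e.repr (∑ j ∈ s, f j • e j) i = f i := by
      simp only [map_sum, map_smul, Module.Basis.repr_self, Finsupp.coe_finsetSum,
        Finset.sum_apply, Finsupp.smul_apply, Finsupp.single_apply, smul_eq_mul, mul_ite, mul_one,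
        mul_zero]
      rw [Finset.sum_ite_eq' s i]
      simp [hi]
    rw [hrepr] at hc
    rw [← hf i]
    exact hIker _ hc
  have hsp : ⊤ ≤ Submodule.span R (Set.range fun j => L.π (e j)) := by
    intro m _
    obtain ⟨x, rfl⟩ := L.π_surjective m
    have hx : x = ∑ j ∈ (e.repr x).support, (e.repr x j) • e j := by
      conv_lhs => rw [← e.linearCombination_repr x]
      rw [Finsupp.linearCombination_apply, Finsupp.sum]
    rw [hx, hπsum]
    exact Submodule.sum_mem _ fun j _ =>
      Submodule.smul_mem _ _ (Submodule.subset_span ⟨j, rfl⟩)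
  refine ⟨Module.Free.of_basis (Module.Basis.mk hli hsp), ?_, ?_⟩
  · rw [eq_bot_iff]
    intro ρ hρ
    rw [Module.mem_annihilator] at hρ
    have h1 := hρ (L.π (e j0))
    have := (linearIndependent_iff'.1 hli) {j0} (fun _ => ρ) (by simpa using h1) j0 (by simp)
    simpa using this
  · apply le_antisymm
    · intro f hf
      rw [RingHom.mem_ker] at hf
      have h0 : L.π (f • e j0) = 0 := by rw [L.π_smul, hf, zero_smul]
      have hc := repr_mem_of_mem_smul_top e I ((L.ker_π _).1 h0) j0
      simpa using hc
    · intro f hf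
      exact hIker f hf

end Fermat.Agent.S57
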