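import Mathlib.RingTheory.MvPowerSeries.Basic
import Mathlib.RingTheory.Ideal.Span
import Mathlib.RingTheory.Ideal.Maps

set_option autoImplicit false

namespace Fermat.Agent.S57

open MvPowerSeries

/-- A power series all of whose monomials involve a variable of the finite set `s`
lies in the ideal generated by the variables of `s`. -/
theorem mem_span_X_image {σ : Type*} {S : Type*} [CommRing S] (s : Finset σ)
    (f : MvPowerSeries σ S)
    (h : ∀ m : σ →₀ ℕ, (∀ i ∈ s, m i = 0) → coeff m f = 0) :
    f ∈ Ideal.span ((X : σ → MvPowerSeries σ S) '' (s : Set σ)) := by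
  classical
  induction s using Finset.induction_on generalizing f with
  | empty =>
    have : f = 0 := by
      ext m
      simpa using h m (by simp)
    simp [this]
  | insert a s ha ih =>
    let f2 : MvPowerSeries σ S := fun m => if m a = 0 then coeff m f else 0
    have hf2 : ∀ m, coeff m f2 = if m a = 0 then coeff m f else 0 := fun m => rfl
    have h1 : (X a : MvPowerSeries σ S) ∣ f - f2 := by
      rw [X_dvd_iff]
      intro m hm
      simp [hf2, hm]
    have h2 : f2 ∈ Ideal.span ((X : σ → MvPowerSeries σ S) '' (s : Set σ)) := by
      apply ih
      intro m hm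
      rw [hf2]
      split_ifs with hma
      · apply h
        intro i hi
        rcases Finset.mem_insert.mp hi with rfl | hi
        · exact hma
        · exact hm i hi
      · rfl
    have h3 : f = (f - f2) + f2 := by ring
    rw [h3]
    apply Ideal.add_mem
    · apply Ideal.mem_of_dvd _ h1
      apply Ideal.subset_span
      exact ⟨a, by simp, rfl⟩
    · refine Ideal.span_mono ?_ h2
      apply Set.image_mono
      simp

/-- Converse of `mem_span_X_image`. -/
theorem coeff_eq_zero_of_mem_span_X_image {σ : Type*} {S : Type*} [CommRing S] (s : Set σ)
    (f : MvPowerSeries σ S)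
    (hf : f ∈ Ideal.span ((X : σ → MvPowerSeries σ S) '' s))
    (m : σ →₀ ℕ) (hm : ∀ i ∈ s, m i = 0) : coeff m f = 0 := by
  classical
  induction hf using Submodule.span_induction generalizing m with
  | mem x hx =>
    obtain ⟨i, hi, rfl⟩ := hx
    rw [coeff_X, if_neg]
    rintro rfl
    simpa using hm i hi
  | zero => simp
  | add x y _ _ hx hy => simp [hx m hm, hy m hm]
  | smul a x _ hx =>
    rw [smul_eq_mul, coeff_mul]
    apply Finset.sum_eq_zero
    rintro ⟨p, q⟩ hpq
    rw [Finset.mem_antidiagonal] at hpq
    have : coeff q x = 0 := by
      apply hx
      intro i hi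
      have := hm i hi
      rw [← hpq] at this
      simp only [Finsupp.coe_add, Pi.add_apply, Nat.add_eq_zero_iff] at this
      exact this.2
    simp [this]

/-- In finitely many variables, a power series with zero constant coefficient lies in the ideal
generated by the variables. -/
theorem mem_span_range_X {σ : Type*} [Finite σ] {S : Type*} [CommRing S]
    (f : MvPowerSeries σ S) (h : constantCoeff f = 0) :
    f ∈ Ideal.span (Set.range (X : σ → MvPowerSeries σ S)) := by
  classical
  have := Fintype.ofFinite σ
  have := mem_span_X_image (Finset.univ : Finset σ) f (by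
    intro m hm
    have : m = 0 := by
      ext i
      simpa using hm i (Finset.mem_univ i)
    subst this
    simpa using h)
  simpa using this

end Fermat.Agent.S57
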