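import Mathlib
import Fermat.Prelude.Def_Algebra_PatchingDatum
import Fermat.Agent.S57.Defs
import Fermat.Agent.S57.SpanX

set_option autoImplicit false

namespace Fermat.Agent.S57

open IsLocalRing MvPowerSeries

theorem ofList_xs_eq_sup (𝒪 : Type) [CommRing 𝒪] (r : ℕ) (ϖ : 𝒪) :
    Ideal.ofList (xs 𝒪 r ϖ) =
      Ideal.span (Set.range (X : Fin r → MvPowerSeries (Fin r) 𝒪)) ⊔ Ideal.span {C ϖ} := by
  rw [xs, Ideal.ofList_append, Ideal.ofList_singleton]
  congr 1
  rw [Ideal.ofList]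
  congr 1
  ext x
  simp [List.mem_ofFn]

theorem mem_maximalIdeal_iff {𝒪 : Type} [CommRing 𝒪] [IsLocalRing 𝒪] {r : ℕ}
    (f : MvPowerSeries (Fin r) 𝒪) :
    f ∈ maximalIdeal (MvPowerSeries (Fin r) 𝒪) ↔ constantCoeff f ∈ maximalIdeal 𝒪 := by
  rw [IsLocalRing.mem_maximalIdeal, IsLocalRing.mem_maximalIdeal, mem_nonunits_iff,
    mem_nonunits_iff, MvPowerSeries.isUnit_iff_constantCoeff]

theorem ofList_xs (𝒪 : Type) [CommRing 𝒪] [IsDomain 𝒪] [IsDiscreteValuationRing 𝒪] (r : ℕ) (ϖ : 𝒪)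
    (hϖ : Irreducible ϖ) :
    Ideal.ofList (xs 𝒪 r ϖ) = maximalIdeal (MvPowerSeries (Fin r) 𝒪) := by
  rw [ofList_xs_eq_sup]
  have hm : maximalIdeal 𝒪 = Ideal.span {ϖ} := hϖ.maximalIdeal_eq
  apply le_antisymm
  · rw [sup_le_iff, Ideal.span_le, Ideal.span_le]
    constructor
    · rintro _ ⟨i, rfl⟩
      rw [SetLike.mem_coe, mem_maximalIdeal_iff]
      simp
    · rintro _ rfl
      simp only [SetLike.mem_coe, mem_maximalIdeal_iff, constantCoeff_C, hm]
      exact Ideal.mem_span_singleton_self ϖ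
  · intro f hf
    rw [mem_maximalIdeal_iff, hm, Ideal.mem_span_singleton] at hf
    obtain ⟨c, hc⟩ := hf
    have h1 : f = (f - C (constantCoeff f)) + C ϖ * C c := by
      rw [← map_mul, ← hc]; ring
    rw [h1]
    apply Ideal.add_mem
    · apply Ideal.mem_sup_left
      apply mem_span_range_X
      simp
    · apply Ideal.mem_sup_right
      exact Ideal.mul_mem_right _ _ (Ideal.mem_span_singleton_self _)

section
variable {𝒪 : Type} [CommRing 𝒪] {r : ℕ} {R : Type} [CommRing R] [Algebra 𝒪 R]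
    {M : Type} [AddCommGroup M] [Module R M] (L : Algebra.PatchingLevel 𝒪 r R M ⊥)

theorem finite_N : Module.Finite (MvPowerSeries (Fin r) 𝒪) L.N := by
  classical
  refine ⟨⟨Finset.univ.image L.b, ?_⟩⟩
  rw [eq_top_iff]
  intro x _
  obtain ⟨c, rfl⟩ := L.b_span x
  apply Submodule.sum_mem
  intro i _
  apply Submodule.smul_mem
  apply Submodule.subset_span
  simp

theorem phi_mem_maximalIdeal [IsLocalRing 𝒪] [Nontrivial M] (ϖ : 𝒪) (hϖ : ϖ ∈ maximalIdeal 𝒪) :
    ∀ y ∈ (xs 𝒪 r ϖ).map L.φ, y ∈ maximalIdeal (MvPowerSeries (Fin r) 𝒪) := by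
  have hR : Nontrivial R := by
    by_contra h
    rw [not_nontrivial_iff_subsingleton] at h
    have : Subsingleton M := Module.subsingleton R M
    exact not_subsingleton M this
  intro y hy
  rw [List.mem_map] at hy
  obtain ⟨x, hx, rfl⟩ := hy
  rw [xs, List.mem_append, List.mem_ofFn, List.mem_singleton] at hx
  rcases hx with ⟨i, rfl⟩ | rfl
  · rw [IsLocalRing.mem_maximalIdeal, mem_nonunits_iff]
    intro hu
    have := hu.map L.ψ
    rw [L.ψ_φ_X] at this
    exact not_isUnit_zero this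
  · have : (C ϖ : MvPowerSeries (Fin r) 𝒪) = algebraMap 𝒪 _ ϖ := rfl
    rw [this, AlgHom.commutes, ← this, mem_maximalIdeal_iff]
    simpa using hϖ

end

end Fermat.Agent.S57
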