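import Mathlib
import Fermat.Prelude.Def_Algebra_PatchingDatum
import Fermat.Agent.S57.Defs
import Fermat.Agent.S57.SpanX
import Fermat.Agent.S57.MaxIdeal
set_option autoImplicit false
namespace Fermat.Agent.S57.B
open MvPowerSeries IsLocalRing
variable {𝒪 : Type} [CommRing 𝒪] {r : ℕ} {R : Type} [CommRing R] [Algebra 𝒪 R]
    {M : Type} [AddCommGroup M] [Module R M] (L : Algebra.PatchingLevel 𝒪 r R M ⊥)

theorem phi_mem_of_constantCoeff_eq_zero (ϖ : 𝒪) (e : MvPowerSeries (Fin r) 𝒪)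
    (he : constantCoeff e = 0) : L.φ e ∈ Ideal.ofList ((xs 𝒪 r ϖ).map L.φ) := by
  have h1 := mem_span_range_X e he
  have h2 : L.φ.toRingHom e ∈ Ideal.map L.φ.toRingHom
      (Ideal.span (Set.range (X : Fin r → MvPowerSeries (Fin r) 𝒪))) :=
    Ideal.mem_map_of_mem _ h1
  have h3 := Ideal.map_ofList L.φ.toRingHom (xs 𝒪 r ϖ)
  have h4 : L.φ.toRingHom e ∈ Ideal.map L.φ.toRingHom (Ideal.ofList (xs 𝒪 r ϖ)) := by
    refine Ideal.map_mono ?_ h2
    rw [ofList_xs_eq_sup]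
    exact le_sup_left
  rw [h3] at h4
  exact h4

theorem C_mem (ϖ : 𝒪) : (C ϖ : MvPowerSeries (Fin r) 𝒪) ∈ Ideal.ofList ((xs 𝒪 r ϖ).map L.φ) := by
  have : (C ϖ : MvPowerSeries (Fin r) 𝒪) = algebraMap 𝒪 _ ϖ := rfl
  have h : L.φ (C ϖ) = C ϖ := by rw [this, AlgHom.commutes]
  rw [← h]
  apply Ideal.subset_span
  simp [xs]

theorem isFiniteLength_quot [IsDomain 𝒪] [IsDiscreteValuationRing 𝒪] (ϖ : 𝒪) (hϖ : Irreducible ϖ) :
    IsFiniteLength (MvPowerSeries (Fin r) 𝒪)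
      (L.N ⧸ Ideal.ofList ((xs 𝒪 r ϖ).map L.φ) • (⊤ : Submodule (MvPowerSeries (Fin r) 𝒪) L.N)) := by
  classical
  have := finite_N L
  rw [isFiniteLength_iff_isNoetherian_isArtinian]
  refine ⟨inferInstance, ?_⟩
  set I := Ideal.ofList ((xs 𝒪 r ϖ).map L.φ) with hI
  let _ : Module 𝒪 (L.N ⧸ I • (⊤ : Submodule (MvPowerSeries (Fin r) 𝒪) L.N)) :=
    Module.compHom _ (algebraMap 𝒪 (MvPowerSeries (Fin r) 𝒪))
  have hsmul : ∀ (a : 𝒪) (x : L.N ⧸ I • (⊤ : Submodule (MvPowerSeries (Fin r) 𝒪) L.N)),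
      a • x = (C a : MvPowerSeries (Fin r) 𝒪) • x := fun a x => rfl
  have : IsScalarTower 𝒪 (MvPowerSeries (Fin r) 𝒪)
      (L.N ⧸ I • (⊤ : Submodule (MvPowerSeries (Fin r) 𝒪) L.N)) := by
    constructor
    intro a f x
    rw [hsmul, ← mul_smul, MvPowerSeries.smul_eq_C_mul]
  apply isArtinian_of_tower 𝒪
  have hfin : Module.Finite 𝒪 (L.N ⧸ I • (⊤ : Submodule (MvPowerSeries (Fin r) 𝒪) L.N)) := by
    refine ⟨⟨Finset.univ.image fun i => Submodule.Quotient.mk (L.b i), ?_⟩⟩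
    rw [eq_top_iff]
    rintro x -
    obtain ⟨n, rfl⟩ := Submodule.Quotient.mk_surjective _ x
    obtain ⟨c, rfl⟩ := L.b_span n
    rw [← Submodule.mkQ_apply, map_sum]
    apply Submodule.sum_mem
    intro i _
    have h1 : c i = C (constantCoeff (c i)) + (c i - C (constantCoeff (c i))) := by ring
    have h2 : L.φ (c i - C (constantCoeff (c i))) ∈ I :=
      phi_mem_of_constantCoeff_eq_zero L ϖ _ (by simp)
    have h3 : L.φ (C (constantCoeff (c i))) = C (constantCoeff (c i)) := by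
      have : (C (constantCoeff (c i)) : MvPowerSeries (Fin r) 𝒪) = algebraMap 𝒪 _ (constantCoeff (c i)) := rfl
      rw [this, AlgHom.commutes]
    rw [Submodule.mkQ_apply, h1, map_add, add_smul, Submodule.Quotient.mk_add, h3]
    have h4 : (Submodule.Quotient.mk (L.φ (c i - C (constantCoeff (c i))) • L.b i) :
        L.N ⧸ I • (⊤ : Submodule (MvPowerSeries (Fin r) 𝒪) L.N)) = 0 := by
      rw [Submodule.Quotient.mk_eq_zero]
      exact Submodule.smul_mem_smul h2 trivial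
    rw [h4, add_zero, Submodule.Quotient.mk_smul, ← hsmul]
    apply Submodule.smul_mem
    apply Submodule.subset_span
    simp
  have htors : Module.IsTorsionBySet 𝒪 (L.N ⧸ I • (⊤ : Submodule (MvPowerSeries (Fin r) 𝒪) L.N))
      (maximalIdeal 𝒪 : Set 𝒪) := by
    rintro x ⟨a, ha⟩
    rw [SetLike.mem_coe, hϖ.maximalIdeal_eq, Ideal.mem_span_singleton] at ha
    obtain ⟨c, rfl⟩ := ha
    obtain ⟨n, rfl⟩ := Submodule.Quotient.mk_surjective _ x
    change (ϖ * c) • _ = _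
    rw [hsmul, ← Submodule.Quotient.mk_smul, Submodule.Quotient.mk_eq_zero, map_mul]
    exact Submodule.smul_mem_smul (Ideal.mul_mem_right _ _ (C_mem L ϖ)) trivial
  let _ : Module (𝒪 ⧸ maximalIdeal 𝒪) (L.N ⧸ I • (⊤ : Submodule (MvPowerSeries (Fin r) 𝒪) L.N)) :=
    htors.module
  have : IsScalarTower 𝒪 (𝒪 ⧸ maximalIdeal 𝒪)
      (L.N ⧸ I • (⊤ : Submodule (MvPowerSeries (Fin r) 𝒪) L.N)) := htors.isScalarTower
  let _ : Field (𝒪 ⧸ maximalIdeal 𝒪) := Ideal.Quotient.field _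
  have : Module.Finite (𝒪 ⧸ maximalIdeal 𝒪)
      (L.N ⧸ I • (⊤ : Submodule (MvPowerSeries (Fin r) 𝒪) L.N)) :=
    Module.Finite.of_restrictScalars_finite 𝒪 _ _
  exact isArtinian_of_surjective_algebraMap (S := 𝒪) (R := 𝒪 ⧸ maximalIdeal 𝒪)
    Ideal.Quotient.mk_surjective

end Fermat.Agent.S57.B
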