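import Mathlib
import Fermat.Prelude.Def_Algebra_PatchingDatum

set_option autoImplicit false

open RingTheory.Sequence

namespace Fermat.Agent.S57

variable {𝒪 : Type} [CommRing 𝒪] {r : ℕ} {R : Type} [CommRing R] [Algebra 𝒪 R]
    {M : Type} [AddCommGroup M] [Module R M] (L : Algebra.PatchingLevel 𝒪 r R M ⊥)

/-- The additive map `c ↦ ∑ i, φ (c i) • b i`. -/
noncomputable def coordHom : (Fin L.d → MvPowerSeries (Fin r) 𝒪) →+ L.N where
  toFun c := ∑ i, L.φ (c i) • L.b i
  map_zero' := by simp
  map_add' c c' := by simp [add_smul, Finset.sum_add_distrib]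

theorem coordHom_apply (c : Fin L.d → MvPowerSeries (Fin r) 𝒪) :
    coordHom L c = ∑ i, L.φ (c i) • L.b i := rfl

theorem coordHom_bijective : Function.Bijective (coordHom L) := by
  constructor
  · rw [injective_iff_map_eq_zero]
    intro c hc
    have := (L.b_rel c).mp hc
    funext i
    simpa using this i
  · intro x
    obtain ⟨c, hc⟩ := L.b_span x
    exact ⟨c, hc.symm⟩

/-- `N` is additively `A ^ d`, semilinearly along `φ`. -/
noncomputable def coordEquiv : (Fin L.d → MvPowerSeries (Fin r) 𝒪) ≃+ L.N :=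
  AddEquiv.ofBijective (coordHom L) (coordHom_bijective L)

theorem coordEquiv_apply (c : Fin L.d → MvPowerSeries (Fin r) 𝒪) :
    coordEquiv L c = ∑ i, L.φ (c i) • L.b i := rfl

theorem coordEquiv_smul (s : MvPowerSeries (Fin r) 𝒪) (c : Fin L.d → MvPowerSeries (Fin r) 𝒪) :
    coordEquiv L (s • c) = L.φ s • coordEquiv L c := by
  simp [coordEquiv_apply, Finset.smul_sum, mul_smul]

theorem isWeaklyRegular_pi {A : Type} [CommRing A] (d : ℕ) (rs : List A)
    (h : IsWeaklyRegular A rs) : IsWeaklyRegular (Fin d → A) rs :=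
  ((TensorProduct.lid A (Fin d → A)).isWeaklyRegular_congr rs).mp
    (h.isWeaklyRegular_rTensor (M₂ := Fin d → A))

theorem map_phi_isWeaklyRegular (rs : List (MvPowerSeries (Fin r) 𝒪))
    (h : IsWeaklyRegular (MvPowerSeries (Fin r) 𝒪) rs) : IsWeaklyRegular L.N (rs.map L.φ) :=
  ((coordEquiv L).isWeaklyRegular_congr <| List.forall₂_map_right_iff.mpr <|
    List.forall₂_same.mpr fun s _ c => coordEquiv_smul L s c).mp (isWeaklyRegular_pi L.d rs h)

end Fermat.Agent.S57
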