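import Mathlib
import Fermat.Agent.S57.Defs

set_option autoImplicit false

open RingTheory.Sequence

namespace Fermat.Agent.S57

variable {𝒪 : Type} [CommRing 𝒪] {r : ℕ}

/-- the ideal generated by the variables `X i` with `i < k` -/
noncomputable def varIdeal (𝒪 : Type) [CommRing 𝒪] (r k : ℕ) : Ideal (MvPowerSeries (Fin r) 𝒪) :=
  Ideal.span {f | ∃ i : Fin r, i.val < k ∧ f = MvPowerSeries.X i}

lemma varIdeal_mono {k l : ℕ} (h : k ≤ l) : varIdeal 𝒪 r k ≤ varIdeal 𝒪 r l := by
  apply Ideal.span_mono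
  rintro f ⟨i, hi, rfl⟩
  exact ⟨i, lt_of_lt_of_le hi h, rfl⟩

lemma coeff_eq_zero_of_mem_varIdeal {k : ℕ} {f : MvPowerSeries (Fin r) 𝒪}
    (hf : f ∈ varIdeal 𝒪 r k) (m : Fin r →₀ ℕ) (hm : ∀ i : Fin r, i.val < k → m i = 0) :
    MvPowerSeries.coeff m f = 0 := by
  classical
  induction hf using Submodule.span_induction generalizing m with
  | mem x hx =>
    obtain ⟨i, hi, rfl⟩ := hx
    rw [MvPowerSeries.coeff_X, if_neg]
    intro h
    have := hm i hi
    rw [h] at this
    simp at this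
  | zero => simp
  | add x y _ _ hx hy => rw [map_add, hx m hm, hy m hm, add_zero]
  | smul a x _ hx =>
    rw [smul_eq_mul, MvPowerSeries.coeff_mul]
    apply Finset.sum_eq_zero
    rintro ⟨p, q⟩ hpq
    rw [Finset.HasAntidiagonal.mem_antidiagonal] at hpq
    have : MvPowerSeries.coeff q x = 0 := by
      apply hx
      intro i hi
      have h1 := hm i hi
      rw [← hpq] at h1
      simp only [Finsupp.coe_add, Pi.add_apply, Nat.add_eq_zero_iff] at h1
      exact h1.2
    simp [this]

lemma mem_varIdeal_of_coeff_eq_zero (k : ℕ) (f : MvPowerSeries (Fin r) 𝒪)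
    (h : ∀ m : Fin r →₀ ℕ, (∀ i : Fin r, i.val < k → m i = 0) → MvPowerSeries.coeff m f = 0) :
    f ∈ varIdeal 𝒪 r k := by
  classical
  induction k generalizing f with
  | zero =>
    have : f = 0 := by
      ext m
      simpa using h m (by simp)
    rw [this]
    exact Submodule.zero_mem _
  | succ k ih =>
    by_cases hk : k < r
    · let j : Fin r := ⟨k, hk⟩
      let g : MvPowerSeries (Fin r) 𝒪 := fun m => if m j = 0 then MvPowerSeries.coeff m f else 0
      have hg : ∀ m, MvPowerSeries.coeff m g = if m j = 0 then MvPowerSeries.coeff m f else 0 :=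
        fun m => rfl
      have h1 : g ∈ varIdeal 𝒪 r k := by
        apply ih
        intro m hm
        rw [hg]
        split_ifs with hj
        · apply h
          intro i hi
          rcases Nat.lt_succ_iff_lt_or_eq.mp hi with h2 | h2
          · exact hm i h2
          · have : i = j := Fin.ext h2
            rw [this]; exact hj
        · rfl
      have h2 : (MvPowerSeries.X j : MvPowerSeries (Fin r) 𝒪) ∣ f - g := by
        rw [MvPowerSeries.X_dvd_iff]
        intro m hm
        rw [map_sub, hg, if_pos hm, sub_self]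
      have h3 : f - g ∈ varIdeal 𝒪 r (k + 1) := by
        apply Ideal.mem_of_dvd _ h2
        exact Ideal.subset_span ⟨j, Nat.lt_succ_self k, rfl⟩
      have : f = (f - g) + g := by ring
      rw [this]
      exact Ideal.add_mem _ h3 (varIdeal_mono (Nat.le_succ k) h1)
    · apply varIdeal_mono (Nat.le_succ k)
      apply ih
      intro m hm
      apply h
      intro i _
      exact hm i (lt_of_lt_of_le i.isLt (not_lt.mp hk))

lemma mem_varIdeal_iff (k : ℕ) (f : MvPowerSeries (Fin r) 𝒪) :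
    f ∈ varIdeal 𝒪 r k ↔
      ∀ m : Fin r →₀ ℕ, (∀ i : Fin r, i.val < k → m i = 0) → MvPowerSeries.coeff m f = 0 :=
  ⟨fun hf m hm => coeff_eq_zero_of_mem_varIdeal hf m hm, mem_varIdeal_of_coeff_eq_zero k f⟩

lemma ofList_take_xs (ϖ : 𝒪) (i : ℕ) (hi : i ≤ r) :
    Ideal.ofList ((xs 𝒪 r ϖ).take i) = varIdeal 𝒪 r i := by
  unfold varIdeal Ideal.ofList
  congr 1
  ext f
  simp only [Set.mem_ofPred_eq, xs]
  rw [List.take_append_of_le_length (by simpa using hi), List.mem_take_iff_getElem]
  constructor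
  · rintro ⟨j, hj, rfl⟩
    simp only [List.length_ofFn, lt_inf_iff] at hj
    exact ⟨⟨j, hj.2⟩, hj.1, by simp⟩
  · rintro ⟨j, hj, rfl⟩
    exact ⟨j.val, by simpa using hj, by simp⟩

theorem xs_isWeaklyRegular (𝒪 : Type) [CommRing 𝒪] (r : ℕ) (ϖ : 𝒪) (hϖ : IsSMulRegular 𝒪 ϖ) :
    IsWeaklyRegular (MvPowerSeries (Fin r) 𝒪) (xs 𝒪 r ϖ) := by
  classical
  constructor
  intro i hi
  have hlen : (xs 𝒪 r ϖ).length = r + 1 := by simp [xs]
  have hi' : i ≤ r := by omega
  rw [ofList_take_xs ϖ i hi', smul_eq_mul, Ideal.mul_top,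
    isSMulRegular_quotient_iff_mem_of_smul_mem]
  intro f hf
  rw [mem_varIdeal_iff] at hf ⊢
  intro m hm
  rcases Nat.lt_or_ge i r with h | h
  · have hx : (xs 𝒪 r ϖ)[i] = MvPowerSeries.X (⟨i, h⟩ : Fin r) := by
      simp [xs, List.getElem_append_left, h]
    rw [hx] at hf
    have h1 := hf (Finsupp.single (⟨i, h⟩ : Fin r) 1 + m) (by
      intro j hj
      have hne : (⟨i, h⟩ : Fin r) ≠ j := by
        intro h2
        rw [← h2] at hj
        exact lt_irrefl _ hj
      simp [hm j hj, Finsupp.single_eq_of_ne hne.symm])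
    rw [smul_eq_mul, MvPowerSeries.X, MvPowerSeries.coeff_add_monomial_mul, one_mul] at h1
    exact h1
  · have hir : i = r := le_antisymm hi' h
    subst hir
    have hx : (xs 𝒪 i ϖ)[i] = MvPowerSeries.C ϖ := by
      simp [xs]
    rw [hx] at hf
    have h1 := hf m hm
    rw [smul_eq_mul, MvPowerSeries.coeff_C_mul] at h1
    exact hϖ (by simpa using h1)

lemma varIdeal_self_eq_span_range :
    varIdeal 𝒪 r r = Ideal.span (Set.range fun i : Fin r =>
      (MvPowerSeries.X i : MvPowerSeries (Fin r) 𝒪)) := by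
  unfold varIdeal
  congr 1
  ext f
  constructor
  · rintro ⟨i, _, rfl⟩
    exact ⟨i, rfl⟩
  · rintro ⟨i, rfl⟩
    exact ⟨i, i.isLt, rfl⟩

lemma mem_span_range_X_iff (f : MvPowerSeries (Fin r) 𝒪) :
    f ∈ Ideal.span (Set.range fun i : Fin r => (MvPowerSeries.X i : MvPowerSeries (Fin r) 𝒪)) ↔
      MvPowerSeries.constantCoeff f = 0 := by
  rw [← varIdeal_self_eq_span_range, mem_varIdeal_iff]
  constructor
  · intro h
    exact h 0 (by simp)
  · intro h m hm
    have : m = 0 := by
      ext i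
      exact hm i i.isLt
    rw [this]
    exact h

lemma sub_C_constantCoeff_mem_span_range_X (f : MvPowerSeries (Fin r) 𝒪) :
    f - MvPowerSeries.C (MvPowerSeries.constantCoeff f) ∈
      Ideal.span (Set.range fun i : Fin r => (MvPowerSeries.X i : MvPowerSeries (Fin r) 𝒪)) := by
  rw [mem_span_range_X_iff]
  simp

lemma ofList_ofFn_X :
    Ideal.ofList (List.ofFn fun i : Fin r => (MvPowerSeries.X i : MvPowerSeries (Fin r) 𝒪)) =
      Ideal.span (Set.range fun i : Fin r => (MvPowerSeries.X i : MvPowerSeries (Fin r) 𝒪)) := by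
  unfold Ideal.ofList
  congr 1
  ext f
  simp [List.mem_ofFn]

lemma ofList_xs_eq (ϖ : 𝒪) :
    Ideal.ofList (xs 𝒪 r ϖ) =
      Ideal.span (Set.range fun i : Fin r => (MvPowerSeries.X i : MvPowerSeries (Fin r) 𝒪)) ⊔
        Ideal.span {MvPowerSeries.C ϖ} := by
  rw [xs, Ideal.ofList_append, ofList_ofFn_X, Ideal.ofList_singleton]

end Fermat.Agent.S57
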