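import Mathlib
import Fermat.Prelude.Def_Algebra_PatchingDatum
import Fermat.Agent.S57.Defs
import Fermat.Agent.S57.SpanX

set_option autoImplicit false

namespace Fermat.Agent.S57

open MvPowerSeries

variable {𝒪 : Type} [CommRing 𝒪] {r : ℕ} {R : Type} [CommRing R] [Algebra 𝒪 R]
    {M : Type} [AddCommGroup M] [Module R M] (L : Algebra.PatchingLevel 𝒪 r R M ⊥)

/-- `φ f` is congruent to the constant term of `f` modulo the ideal generated by `φ (xs)`. -/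
theorem phi_sub_C_mem (ϖ : 𝒪) (f : MvPowerSeries (Fin r) 𝒪) :
    L.φ f - C (constantCoeff f) ∈ Ideal.ofList ((xs 𝒪 r ϖ).map L.φ) := by
  have h1 : f - C (constantCoeff f) ∈ Ideal.ofList (xs 𝒪 r ϖ) := by
    have h2 := mem_span_range_X (f - C (constantCoeff f)) (by simp)
    refine Ideal.span_mono ?_ h2
    rintro _ ⟨i, rfl⟩
    simp [xs, List.mem_ofFn]
  have h3 := Ideal.mem_map_of_mem (L.φ : MvPowerSeries (Fin r) 𝒪 →+* MvPowerSeries (Fin r) 𝒪) h1
  rw [Ideal.map_ofList] at h3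
  have h4 : L.φ (C (constantCoeff f)) = C (constantCoeff f) := L.φ.commutes _
  simpa [h4] using h3

theorem C_mem_ofList (ϖ : 𝒪) :
    (C ϖ : MvPowerSeries (Fin r) 𝒪) ∈ Ideal.ofList ((xs 𝒪 r ϖ).map L.φ) := by
  apply Ideal.subset_span
  have h4 : L.φ (C ϖ) = C ϖ := L.φ.commutes _
  simp only [Set.mem_ofPred_eq, List.mem_map]
  exact ⟨C ϖ, by simp [xs], h4⟩

theorem isFiniteLength_quot [IsDomain 𝒪] [IsDiscreteValuationRing 𝒪] (ϖ : 𝒪) (hϖ : Irreducible ϖ) :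
    IsFiniteLength (MvPowerSeries (Fin r) 𝒪)
      (L.N ⧸ Ideal.ofList ((xs 𝒪 r ϖ).map L.φ) • (⊤ : Submodule (MvPowerSeries (Fin r) 𝒪) L.N)) := by
  classical
  set A := MvPowerSeries (Fin r) 𝒪 with hA
  set J : Ideal A := Ideal.ofList ((xs 𝒪 r ϖ).map L.φ) with hJ
  let _ : Module 𝒪 L.N := Module.compHom L.N (algebraMap 𝒪 A)
  have hsmul : ∀ (a : 𝒪) (x : L.N), a • x = (C a : A) • x := fun a x => rfl
  have _ : IsScalarTower 𝒪 A L.N := ⟨fun a f x => by
    rw [hsmul, Algebra.smul_def, mul_smul]; rfl⟩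
  -- the `𝒪`-linear map `𝒪^d → Q`
  let g : (Fin L.d → 𝒪) →ₗ[𝒪] (L.N ⧸ J • (⊤ : Submodule A L.N)) :=
    ((J • (⊤ : Submodule A L.N)).mkQ.restrictScalars 𝒪).comp
      (Fintype.linearCombination 𝒪 L.b)
  have hg : Function.Surjective g := by
    intro q
    obtain ⟨x, rfl⟩ := (J • (⊤ : Submodule A L.N)).mkQ_surjective q
    obtain ⟨c, rfl⟩ := L.b_span x
    refine ⟨fun i => constantCoeff (c i), ?_⟩
    change (J • (⊤ : Submodule A L.N)).mkQ
      (Fintype.linearCombination 𝒪 L.b fun i => constantCoeff (c i)) = _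
    rw [Fintype.linearCombination_apply, eq_comm, ← sub_eq_zero, ← map_sub,
      Submodule.mkQ_apply, Submodule.Quotient.mk_eq_zero, ← Finset.sum_sub_distrib]
    apply Submodule.sum_mem
    intro i _
    rw [hsmul, ← sub_smul]
    exact Submodule.smul_mem_smul (phi_sub_C_mem L ϖ (c i)) trivial
  have htors : Module.IsTorsionBySet 𝒪 (L.N ⧸ J • (⊤ : Submodule A L.N))
      (IsLocalRing.maximalIdeal 𝒪 : Set 𝒪) := by
    rw [hϖ.maximalIdeal_eq]
    refine (Module.isTorsionBySet_span_singleton_iff ϖ).mpr ?_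
    intro q
    obtain ⟨x, rfl⟩ := (J • (⊤ : Submodule A L.N)).mkQ_surjective q
    rw [Submodule.mkQ_apply, ← Submodule.Quotient.mk_smul, Submodule.Quotient.mk_eq_zero, hsmul]
    exact Submodule.smul_mem_smul (C_mem_ofList L ϖ) trivial
  let _ : Module (𝒪 ⧸ IsLocalRing.maximalIdeal 𝒪) (L.N ⧸ J • (⊤ : Submodule A L.N)) :=
    htors.module
  have _ : IsScalarTower 𝒪 (𝒪 ⧸ IsLocalRing.maximalIdeal 𝒪) (L.N ⧸ J • (⊤ : Submodule A L.N)) :=
    htors.isScalarTower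
  have _ : Module.Finite 𝒪 (L.N ⧸ J • (⊤ : Submodule A L.N)) := Module.Finite.of_surjective g hg
  have _ : Module.Finite (𝒪 ⧸ IsLocalRing.maximalIdeal 𝒪) (L.N ⧸ J • (⊤ : Submodule A L.N)) :=
    Module.Finite.of_restrictScalars_finite 𝒪 _ _
  let _ : Field (𝒪 ⧸ IsLocalRing.maximalIdeal 𝒪) := Ideal.Quotient.field _
  have hart : IsArtinian 𝒪 (L.N ⧸ J • (⊤ : Submodule A L.N)) :=
    isArtinian_of_surjective_algebraMap (R := 𝒪 ⧸ IsLocalRing.maximalIdeal 𝒪)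
      Ideal.Quotient.mk_surjective
  have hnoeth : IsNoetherian 𝒪 (L.N ⧸ J • (⊤ : Submodule A L.N)) := inferInstance
  rw [isFiniteLength_iff_isNoetherian_isArtinian]
  exact ⟨isNoetherian_of_tower 𝒪 hnoeth, isArtinian_of_tower 𝒪 hart⟩

end Fermat.Agent.S57
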